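import Mathlib
import Fermat.Prelude.Def_ModularForm_HeckeOperator
import Fermat.Prelude.Def_FLTPrelim_Modularity
import Fermat.Prelude.Thm_CongruenceSubgroup_one_mem_strictPeriods_Gamma0
import Fermat.Prelude.Thm_UpperHalfPlane_qExpansion_coeff_nat_mul
import Fermat.Prelude.Thm_UpperHalfPlane_qCoeff_heckeU
import Fermat.Prelude.Thm_ModularForm_periodic_heckeU_comp_ofComplex
import Fermat.Prelude.Thm_ModularForm_mdifferentiable_heckeU
import Fermat.Prelude.Thm_ModularForm_isBoundedAtImInfty_heckeU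
import Fermat.Agent.S20.Basic
import Fermat.Agent.S22.QAlg
import Fermat.Agent.S28.H22.Translates

/-!
# S16, package U3-EXP: period-`p` `q`-expansions of the coset translates of a `Γ₀(p)`-form

Conventions of S20: `X p = SL(2,ℤ) ⧸ Γ₀(p)`, `cosetFun f (mk g) = f ∣[k] g⁻¹`.

* `isNice_cosetFun`: every coset translate is `p`-periodic, holomorphic, bounded at `i∞`
  (`IsNice p`, so `S22.qExpHom p` applies to polynomial expressions in translates).
* `coeff_qExpansion_cosetFun_one`: the identity coset, `a_n` at `t^{pn}` (`t = q^{1/p}`).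
* `exists_coset_rep`: every coset is `mk 1` or `mk (S * T^j)⁻¹`, `j < p`.
* weight 2, from the Atkin–Lehner relation `G ∣ S = -(U_p G) ∣ [[1,0],[0,p]]` as a hypothesis:
  `coeff_qExpansion_cosetFun_ST`: the coefficient of `t^n` in `G ∣ S T^j` is
  `-(1/p) ζ^{jn} a_{pn}(G)`.
-/

set_option autoImplicit false
set_option linter.unusedSectionVars false

noncomputable section

open UpperHalfPlane Function Complex ModularForm CongruenceSubgroup Matrix.SpecialLinearGroup
open scoped Manifold MatrixGroups ModularForm Real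

namespace Fermat.Agent.S16.H22

open Fermat.Agent.S20 Fermat.Agent.S22 Fermat.Agent.S28.H22

section General

variable {N : ℕ} [NeZero N] {k : ℤ}

/-- Every coset translate of a modular form on `Γ₀(N)` is `N`-periodic, holomorphic and bounded
at `i∞`. -/
theorem isNice_cosetFun (f : ModularForm (Γ0 N) k) (c : X N) : IsNice N (cosetFun f c) := by
  refine ⟨?_, mdifferentiable_cosetFun f c, isBoundedAtImInfty_cosetFun f c⟩
  have := cosetFun_periodic f c
  simpa using this

/-- A modular form on `Γ₀(N)` is `1`-periodic, holomorphic and bounded at `i∞`. -/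
theorem isNice_one_coe (f : ModularForm (Γ0 N) k) : IsNice 1 (f : ℍ → ℂ) := by
  have h1 : (1 : ℝ) ∈ (Γ0 N).strictPeriods := CongruenceSubgroup.one_mem_strictPeriods_Gamma0 N
  have : Fact (IsCusp OnePoint.infty (Γ0 N)) :=
    ⟨Subgroup.isCusp_of_mem_strictPeriods (𝒢 := Γ0 N) one_pos h1⟩
  exact IsNice.of_one 1 (SlashInvariantFormClass.periodic_comp_ofComplex f h1)
    (ModularFormClass.holo f) (ModularFormClass.bdd_at_infty f)

/-- Period-`N` coefficients of a `1`-periodic nice function. -/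
theorem coeff_qExpansion_period {F : ℍ → ℂ} (hF : IsNice 1 F) (n : ℕ) :
    (qExpansion (N : ℝ) F).coeff n = if N ∣ n then (qExpansion 1 F).coeff (n / N) else 0 := by
  have hper : Periodic (F ∘ ofComplex) ((1 : ℝ) : ℂ) := by simpa using hF.per
  have h := UpperHalfPlane.qExpansion_coeff_nat_mul one_pos hper hF.holo hF.bdd
    (NeZero.pos N) n
  rwa [mul_one] at h

/-- The identity coset: the period-`N` expansion of `f` itself. -/
theorem coeff_qExpansion_cosetFun_one (f : ModularForm (Γ0 N) k) (n : ℕ) :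
    (qExpansion (N : ℝ) (cosetFun f (QuotientGroup.mk 1 : X N))).coeff n =
      if N ∣ n then (qExpansion 1 f).coeff (n / N) else 0 := by
  rw [cosetFun_one]
  exact coeff_qExpansion_period (isNice_one_coe f) n

/-- Coset translates are multiplicative. -/
theorem cosetFun_mul {k₁ k₂ : ℤ} (F : ModularForm (Γ0 N) k₁) (H : ModularForm (Γ0 N) k₂)
    (c : X N) : cosetFun (F.mul H) c = cosetFun F c * cosetFun H c := by
  induction c using QuotientGroup.induction_on with
  | H g =>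
    rw [cosetFun_mk, cosetFun_mk, cosetFun_mk, ModularForm.coe_mul, ModularForm.mul_slash_SL2]

/-- Every coset translate of (the restriction of) a level-one form is the form itself. -/
theorem cosetFun_resLO {m : ℤ} (r : ModularForm 𝒮ℒ m) (c : X N) :
    cosetFun (resLO N r) c = r := by
  induction c using QuotientGroup.induction_on with
  | H g =>
    have h1 : (⇑(resLO N r) : ℍ → ℂ) = r := rfl
    rw [cosetFun_mk, h1, H47.levelOne_slash]

end General

section Prime

variable (p : ℕ) [Fact p.Prime]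

/-- Lower-left entry of `S * T^j * g`. -/
theorem S_mul_T_pow_mul_apply_one_zero (j : ℕ) (g : SL(2, ℤ)) :
    (ModularGroup.S * ModularGroup.T ^ j * g) 1 0 = g 0 0 + j * g 1 0 := by
  rw [Matrix.SpecialLinearGroup.coe_mul, Matrix.SpecialLinearGroup.coe_mul, ← zpow_natCast,
    ModularGroup.coe_T_zpow, ModularGroup.coe_S]
  simp [Matrix.mul_apply, Fin.sum_univ_two]

/-- The coset representatives of `SL(2,ℤ) ⧸ Γ₀(p)`: `1` and `(S T^j)⁻¹`, `j < p`. -/
theorem exists_coset_rep (c : X p) :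
    c = (QuotientGroup.mk 1 : X p) ∨
      ∃ j : ℕ, j < p ∧ c = (QuotientGroup.mk (ModularGroup.S * ModularGroup.T ^ j)⁻¹ : X p) := by
  induction c using QuotientGroup.induction_on with
  | H g =>
    by_cases hg : g ∈ Gamma0 p
    · left
      rw [eq_comm, QuotientGroup.eq]
      simpa using hg
    · right
      rw [Gamma0_mem] at hg
      set b : ZMod p := -((g 0 0 : ℤ) : ZMod p) * ((g 1 0 : ℤ) : ZMod p)⁻¹ with hb
      refine ⟨b.val, ZMod.val_lt b, ?_⟩
      rw [eq_comm, QuotientGroup.eq, inv_inv, Gamma0_mem, S_mul_T_pow_mul_apply_one_zero]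
      push_cast
      rw [ZMod.natCast_zmod_val, hb, mul_assoc, inv_mul_cancel₀ hg, mul_one, add_neg_cancel]

/-- `[[1,0],[0,p]] * T^j = [[1,j],[0,p]]`. -/
theorem heckeMatrix_zero_mul_T_pow (j : ℕ) :
    heckeMatrix p 0 * mapGL ℝ (ModularGroup.T ^ j) = heckeMatrix p j := by
  have hp : p ≠ 0 := (Fact.out : p.Prime).ne_zero
  have hT : ((ModularGroup.T ^ j : SL(2, ℤ)) : Matrix (Fin 2) (Fin 2) ℤ) = !![1, (j : ℤ); 0, 1] := by
    rw [← zpow_natCast, ModularGroup.coe_T_zpow]
  obtain ⟨M, hM⟩ : ∃ M : SL(2, ℤ), M = ModularGroup.T ^ j := ⟨_, rfl⟩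
  rw [← hM] at hT ⊢
  have h00 : M 0 0 = 1 := by rw [hT]; rfl
  have h01 : M 0 1 = (j : ℤ) := by rw [hT]; rfl
  have h10 : M 1 0 = 0 := by rw [hT]; rfl
  have h11 : M 1 1 = 1 := by rw [hT]; rfl
  ext a b
  fin_cases a <;> fin_cases b <;>
    simp [hp, Matrix.mul_apply, Fin.sum_univ_two, h00, h01, h10, h11]

/-- From the Atkin–Lehner relation at `S` to all the cosets `S T^j`. -/
theorem slash_S_mul_T_pow {G : ℍ → ℂ}
    (hW : G ∣[(2 : ℤ)] ModularGroup.S = -((heckeU 2 p G) ∣[(2 : ℤ)] heckeMatrix p 0)) (j : ℕ) :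
    G ∣[(2 : ℤ)] (ModularGroup.S * ModularGroup.T ^ j) =
      -((heckeU 2 p G) ∣[(2 : ℤ)] heckeMatrix p j) := by
  have h1 : ((heckeU 2 p G) ∣[(2 : ℤ)] heckeMatrix p 0) ∣[(2 : ℤ)] (ModularGroup.T ^ j : SL(2, ℤ)) =
      ((heckeU 2 p G) ∣[(2 : ℤ)] heckeMatrix p 0) ∣[(2 : ℤ)] (mapGL ℝ (ModularGroup.T ^ j)) :=
    ModularForm.SL_slash _ _
  rw [SlashAction.slash_mul, hW, SlashAction.neg_slash, h1, ← SlashAction.slash_mul,
    heckeMatrix_zero_mul_T_pow]

/-- `U_p G` is `1`-periodic, holomorphic and bounded at `i∞`. -/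
theorem isNice_heckeU {G : ℍ → ℂ} (hG : IsNice 1 G) (k : ℤ) : IsNice 1 (heckeU k p G) := by
  have hper : Periodic (G ∘ ofComplex) 1 := by simpa using hG.per
  refine ⟨?_, ModularForm.mdifferentiable_heckeU hG.holo k p,
    ModularForm.isBoundedAtImInfty_heckeU hG.bdd k p⟩
  have := ModularForm.periodic_heckeU_comp_ofComplex hper k p
  simpa using this

/-- `a_n(U_p G) = a_{np}(G)`. -/
theorem coeff_qExpansion_heckeU {G : ℍ → ℂ} (hG : IsNice 1 G) (k : ℤ) (n : ℕ) :
    (qExpansion 1 (heckeU k p G)).coeff n = (qExpansion 1 G).coeff (n * p) := by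
  have hp : p ≠ 0 := (Fact.out : p.Prime).ne_zero
  have hper : Periodic (G ∘ ofComplex) 1 := by simpa using hG.per
  exact UpperHalfPlane.qCoeff_heckeU hper hG.holo hG.bdd k hp n

/-- The translate `G ∣ S T^j` of a weight-2 form is nice at period `p`. -/
theorem isNice_neg_heckeU_slash {G : ℍ → ℂ} (hG : IsNice 1 G) (j : ℕ) :
    IsNice p (-((heckeU 2 p G) ∣[(2 : ℤ)] heckeMatrix p j)) :=
  (isNice_slash_heckeMatrix (isNice_heckeU p hG 2) 2 (Fact.out : p.Prime).ne_zero j).neg

/-- The period-`p` expansion of `-(U_p G) ∣ [[1,j],[0,p]]`: the coefficient of `t^n` is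
`-(1/p) ζ^{jn} a_{pn}(G)`. -/
theorem coeff_qExpansion_neg_heckeU_slash {G : ℍ → ℂ} (hG : IsNice 1 G) (j n : ℕ) :
    (qExpansion (p : ℝ) (-((heckeU 2 p G) ∣[(2 : ℤ)] heckeMatrix p j))).coeff n =
      -((p : ℂ)⁻¹ * (qExpansion 1 G).coeff (n * p) * zetaBD j p ^ n) := by
  have hp : p ≠ 0 := (Fact.out : p.Prime).ne_zero
  have hU := isNice_heckeU p hG 2
  have hN := isNice_slash_heckeMatrix hU 2 hp j
  have h1 : qExpansion (p : ℝ) (-((heckeU 2 p G) ∣[(2 : ℤ)] heckeMatrix p j)) =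
      -qExpansion (p : ℝ) ((heckeU 2 p G) ∣[(2 : ℤ)] heckeMatrix p j) := by
    have := map_neg (qExpHom p) (⟨_, hN⟩ : niceAlg p)
    exact this
  rw [h1, map_neg, qExpansion_slash_heckeMatrix_coeff hU 2 hp j n, coeff_qExpansion_heckeU p hG]

/-- **Weight 2, the cosets `S T^j`.** Given the Atkin–Lehner relation `hW`, the coset translate
`cosetFun G (mk (S T^j)⁻¹) = G ∣ S T^j` has period-`p` expansion with coefficient
`-(1/p) ζ^{jn} a_{pn}(G)` at `t^n`. -/
theorem coeff_qExpansion_cosetFun_ST (G : ModularForm (Γ0 p) 2)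
    (hW : (G : ℍ → ℂ) ∣[(2 : ℤ)] ModularGroup.S =
      -((heckeU 2 p (G : ℍ → ℂ)) ∣[(2 : ℤ)] heckeMatrix p 0)) (j n : ℕ) :
    (qExpansion (p : ℝ)
        (cosetFun G (QuotientGroup.mk (ModularGroup.S * ModularGroup.T ^ j)⁻¹ : X p))).coeff n =
      -((p : ℂ)⁻¹ * (qExpansion 1 G).coeff (n * p) * zetaBD j p ^ n) := by
  rw [cosetFun_mk, inv_inv, slash_S_mul_T_pow p hW j]
  exact coeff_qExpansion_neg_heckeU_slash p (isNice_one_coe G) j n

/-! ### The statements of the UPPER skeleton (package U3) -/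

theorem zetaBD_pow_self (j : ℕ) : zetaBD j p ^ p = 1 := by
  have hp : (p : ℂ) ≠ 0 := by exact_mod_cast (Fact.out : p.Prime).ne_zero
  rw [zetaBD, ← Complex.exp_nat_mul, Complex.exp_eq_one_iff]
  refine ⟨j, ?_⟩
  push_cast
  field_simp

/-- **U3, first statement** (skeleton `qExpansion_slash_heckeMatrix`, verbatim). -/
theorem qExpansion_slash_heckeMatrix (k : ℤ) (j : ℕ) {f : ℍ → ℂ}
    (hper : Function.Periodic (f ∘ ofComplex) 1) (hhol : MDiff f) (hbdd : IsBoundedAtImInfty f)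
    (n : ℕ) :
    (qExpansion (p : ℝ) (f ∣[k] heckeMatrix p j)).coeff n =
      (p : ℂ)⁻¹ * Complex.exp (2 * Real.pi * Complex.I * j / p) ^ n * (qExpansion 1 f).coeff n := by
  have hf : IsNice 1 f := ⟨by simpa using hper, hhol, hbdd⟩
  rw [qExpansion_slash_heckeMatrix_coeff hf k (Fact.out : p.Prime).ne_zero j n, zetaBD]
  push_cast
  ring

/-- Consequence of the Atkin–Lehner relation (skeleton `cosetFun_S_T_pow`, with the U2 statement
`slash_S_eq` as a hypothesis). -/
theorem cosetFun_S_T_pow_of_slash_S (G : ModularForm (Γ0 p) 2)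
    (hW : (G : ℍ → ℂ) ∣[(2 : ℤ)] ModularGroup.S =
      -((heckeU 2 p (G : ℍ → ℂ)) ∣[(2 : ℤ)] heckeMatrix p 0)) (j : ℕ) :
    cosetFun G (QuotientGroup.mk ((ModularGroup.S * ModularGroup.T ^ j)⁻¹) : X p) =
      -((heckeU 2 p G) ∣[(2 : ℤ)] heckeMatrix p j) := by
  rw [cosetFun_mk, inv_inv, slash_S_mul_T_pow p hW j]

/-- **U3, second statement** (skeleton `qExpansion_cosetFun`, with the U2 statement `slash_S_eq`
as a hypothesis): the period-`p` expansion of every coset translate of a weight-2 form. -/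
theorem qExpansion_cosetFun_of_slash_S (G : ModularForm (Γ0 p) 2)
    (hW : (G : ℍ → ℂ) ∣[(2 : ℤ)] ModularGroup.S =
      -((heckeU 2 p (G : ℍ → ℂ)) ∣[(2 : ℤ)] heckeMatrix p 0)) (c : X p) :
    (∀ n : ℕ, (qExpansion (p : ℝ) (cosetFun G c)).coeff n =
        if p ∣ n then (qExpansion 1 G).coeff (n / p) else 0) ∨
    (∃ ζ : ℂ, ζ ^ p = 1 ∧ ∀ n : ℕ, (qExpansion (p : ℝ) (cosetFun G c)).coeff n =
        -((p : ℂ)⁻¹ * ζ ^ n * (qExpansion 1 G).coeff (p * n))) := by
  rcases exists_coset_rep p c with rfl | ⟨j, -, rfl⟩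
  · left
    exact fun n => coeff_qExpansion_cosetFun_one G n
  · right
    refine ⟨zetaBD j p, zetaBD_pow_self p j, fun n => ?_⟩
    rw [coeff_qExpansion_cosetFun_ST p G hW j n, mul_comm p n]
    ring

end Prime

end Fermat.Agent.S16.H22
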