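import Mathlib
import Fermat.Agent.S16.H22.Exp
import Fermat.Agent.S16.H20.W2

/-!
# S16, package U3-EXP: final statement

The skeleton statement `qExpansion_cosetFun` (period-`p` expansion of every coset translate of a
weight-2 form on `Γ₀(p)`), from `H22.qExpansion_cosetFun_of_slash_S` and helper20's landed
Atkin–Lehner relation `H20.slash_S_eq`.
-/

set_option autoImplicit false

noncomputable section

open UpperHalfPlane ModularForm CongruenceSubgroup Matrix.SpecialLinearGroup
open scoped Manifold MatrixGroups ModularForm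

namespace Fermat.Agent.S16.H22

open Fermat.Agent.S20

/-- **U3** (skeleton `qExpansion_cosetFun`, verbatim): the period-`p` expansion of every coset
translate of a weight-2 form `G` on `Γ₀(p)`. -/
theorem qExpansion_cosetFun (p : ℕ) [Fact p.Prime] (G : ModularForm (Γ0 p) 2) (c : X p) :
    (∀ n : ℕ, (qExpansion (p : ℝ) (cosetFun G c)).coeff n =
        if p ∣ n then (qExpansion 1 G).coeff (n / p) else 0) ∨
    (∃ ζ : ℂ, ζ ^ p = 1 ∧ ∀ n : ℕ, (qExpansion (p : ℝ) (cosetFun G c)).coeff n =
        -((p : ℂ)⁻¹ * ζ ^ n * (qExpansion 1 G).coeff (p * n))) :=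
  qExpansion_cosetFun_of_slash_S p G (Fermat.Agent.S16.H20.slash_S_eq p G) c

end Fermat.Agent.S16.H22
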